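import Mathlib
import Fermat.Agent.LT.T7.H87.BaseAQSpec
import Fermat.Agent.LT.T7.B981.PairDatSpec

/-!
# Row LT, tower T7, node T7.L2Q.1.H2a.A.0.D `BQ87.DatQC87` (owner helper773, registry row 3088):
# THE CUT over `ℚ` -- Spec

OFF-MAIN.  Definitions and frozen Props only (the proved top is `DatQTop.lean`).  No hole,
nothing assumed.  ADDITIVE (new names only, suffix `773`, namespace
`Fermat.Agent.LT.T7.DQ773`).  Vocabulary, byte-identical copies: the cut of helper87
(`T7/H87/BaseAQSpec.lean` 6471b15c: `DatQ87`, `IsDatQ87`, `DatQC87`), the fourth cut of the cubic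
node by helper981 (`T7/B981/PairDatSpec.lean`: `fib981`, `resDeg981`, `pushFin981`, and the
ONE-FIELD leaf `B981.UpDatC981`, which is REUSED VERBATIM for `K = F`).

MIRROR over `ℚ` (quadratic step, `F = ℚ(√-3)`, `ℓ = 2`, REAL place downstairs, two weights) of
the fourth cut of helper981 (`B981.datC_of981`).

    datQC_of773 : B981.UpDatC981 F → HaarCplxExC773 → NormFrameQC773 F → DownFinQC773 F
                    → DownArchQC773 F → PushTelQC773 F → BQ87.DatQC87 F            (VERBATIM)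

## The cut: the PUSH-FORWARD under the norm, place by place

* **`B981.UpDatC981 F`** (leaf of helper981, registry row 2979, ONE field, every field with
  complex places only): reused as it is.
* **`HaarCplxExC773`** (leaf [S]): `GL₂(ℂ)` has a Haar measure for the Borel σ-algebra (the
  measure of the data is CHOSEN here; e.g. the one of `T3.AS.AbelCplxSmoothC`, closed).
* **`NormFrameQC773 F`** (leaf [L]; number theory; PORT of `B981.NormFrameC981` to `F/ℚ`): the
  norm frame downstairs, `a₀ = N_{F/ℚ} a₀' > 0`, `log |α|_∞ = 2 log |α'|_w`.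
* **`DownFinQC773 F`** (node [L-XL]; PORT of `B981.DownFinC981` with `ℓ = 2`, `K = ℚ`): the
  finite places downstairs for ONE pure tensor: `A v = pushFin981 P' A' v`, Satake pairs, unit
  components at the level, `SphOut893 2 T₀ (T₀ ∪ P)`.
* **`DownArchQC773 F`** (leaf [M-L]; NOT a port: the real place): for `c ≠ 0` and Abel pairs
  upstairs, the components `F0`, `F1` of weight `0`, `-1` with `N`-integral
  `halfQ801 c (β' w)` (`T3.R.AbelRealC`, closed) and the clause `CQ801.ArchOkQ801 c`.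
* **`PushTelQC773 F`** (leaf [L-XL]; MATHLIB + the definitions of the coordinates; the finite
  part is the one of `B981.PushTelC981`, NO integral at infinity): the push-forward of a
  telescoping coordinate function telescopes.

## FALSITY CHECKS (helper773)

(a) `F` imaginary quadratic: ONE infinite place `w`, complex; `ℚ` has ONE infinite place `v`,
real; `N α' = σ(α') σ̄(α') > 0` and `v(N α') = w(α')²` (`InfinitePlace` = the absolute value of
the embedding, NOT squared): `log v(α) = 2 log w(α')`.  (b) `halfQ801 c β' (X) = c β'(X/2)`: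
`β (X + j c₀_∞) = c β'(X/2 + j log w(α'))`, the translation upstairs by `c₀'`.  (c) Finite part
of the telescoping: `∏_{v ∈ P} pushFin981 P' A' v (M_v) = ∑_{N(m) = M} ∏_{w ∈ P'} A' w (m_w)`
(`P' = ⊔_{v ∈ P} fib981 P' v`: `under`), `N(m + j e') = N(m) + j e` (the formula for `e`);
`crdDn (M, X) = c ∑_{N(m) = M} crdUp (m, X/2)`, and for fixed `(M, X)` only finitely many
`(j, m)` contribute (`m + j e'` in a finite support, `N(m) = M`, `e v > 0`, `P ≠ ∅`): the sum
over `j` downstairs is the finite sum over `m` of the sums over `j` upstairs, which vanish.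
(d) `P ∩ T₀ = ∅` (`FrameM.prime`, `IsLevFnQ57.div`): the Satake pairs at `P` and the unit
components at `T₀` do not collide (the hypothesis is GIVEN to `DownFinQC773`).  A place of `P`
is unramified in `F` (`w ∉ S'`, `IsRamQ60`), so the clauses of `SphOut893 2` (inert: `IsBC 2`,
`N w = (N v)²`; split: two places of residue degree `1`) are the right ones.  (e) `c` occurs in
`DownArchQC773`, `PushTelQC773` only.  (f) Every leaf has the hypotheses of the node which make
sense for it.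
-/

set_option autoImplicit false

open AutomorphicForm IsDedekindDomain NumberField MeasureTheory
open scoped ComplexConjugate

noncomputable section

namespace Fermat.Agent.LT.T7.DQ773

open Fermat.Agent.LT Fermat.Agent.LT.H556 Fermat.Agent.LT.H556.A0 Fermat.Agent.LT.T7
  Fermat.Agent.LT.T7.H305 Fermat.Agent.LT.T7.L2Q Fermat.Agent.LT.T7.H893
  Fermat.Agent.LT.T7.H962 Fermat.Agent.LT.T7.H732 Fermat.Agent.LT.T7.MQ298
  Fermat.Agent.LT.T7.CQ801 Fermat.Agent.LT.T7.PQ484

attribute [local instance] Fermat.Agent.LT.T5.instMeasurableSpaceG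

/-- **LEAF DQ.0 = HAAR-CPLX-EX** [S].  `GL₂(ℂ)` has a Haar measure (Borel σ-algebra).
Proof.  `T3.AS.AbelCplxSmoothC` (closed) contains one; or `Measure.haar` (`GL₂(ℂ)` is a locally
compact group). -/
def HaarCplxExC773 : Prop :=
  ∃ μc : @Measure (GL (Fin 2) ℂ) (borel _), @Measure.IsHaarMeasure _ _ _ (borel _) μc

section Nodes

variable (F : Type) [Field F] [NumberField F]

/-- **LEAF DQ.2 = NORM-FRAME over `ℚ`** [L] (number theory; PORT of `B981.NormFrameC981`).  A
frame upstairs for the level `𝔫 𝒪_F` gives the norm frame downstairs for the level `𝔫`, with a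
POSITIVE generator.
Proof.  As `B981.NormFrameC981` (closed: helper312, helper621): `P` = the places under `P'`,
`a₀ = N_{F/ℚ} a₀'`, `α = N α'`.  New: `N α' > 0` (`F` is imaginary quadratic: the norm is
`σ(α') σ̄(α')`), and at infinity `v(N α') = w(α')²` for the real place `v` of `ℚ` and the complex
place `w` of `F`. -/
def NormFrameQC773 : Prop :=
  IsImagQuad F →
    ∀ (𝔫 : Ideal (𝓞 ℚ)) (P' : Finset (HeightOneSpectrum (𝓞 F)))
      (e' : HeightOneSpectrum (𝓞 F) → ℕ) (a₀' : 𝓞 F) (α' : Fˣ), 𝔫 ≠ ⊥ →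
      T3.M.FrameM F (upI (K' := F) 𝔫) P' e' a₀' α' →
      ∃ (P : Finset (HeightOneSpectrum (𝓞 ℚ))) (e : HeightOneSpectrum (𝓞 ℚ) → ℕ)
        (a₀ : 𝓞 ℚ) (α : ℚˣ),
        T3.M.FrameM ℚ 𝔫 P e a₀ α ∧
        T3.R.IsTotPos ℚ BQ87.ratReal87 α ∧
        (∀ v : HeightOneSpectrum (𝓞 ℚ), v ∈ P ↔ ∃ w ∈ P', PlaceOver ℚ F v w) ∧
        (∀ v ∈ P, e v = ∑ w ∈ B981.fib981 (K := ℚ) P' v, B981.resDeg981 v w * e' w) ∧
        ∀ (v : InfinitePlace ℚ) (w : InfinitePlace F),
          Real.log (v (α : ℚ)) = 2 * Real.log (w (α' : F))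

open Classical in
/-- **NODE DQ.3 = DOWN-FIN over `ℚ`** [L-XL] (finite places, ONE pure tensor; PORT of
`B981.DownFinC981` with `ℓ = 2`, `K = ℚ`, `K' = F`).  Components upstairs: Satake pairs
`(φ₀ w, A' w)` at `w ∈ P'` (outside `S'`, hence unramified), `1_{GL₂(𝒪_w)}` at the other places
over `P`.  Then there are `A`, `f₀` downstairs: `A v = pushFin981 P' A' v` and `(f₀ v, A v)` a
Satake pair at `v ∈ P`, unit components at the level, and the clause `SphOut893 2` for
`T = T₀ ∪ P`.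
Proof.  As `B981.DownFinC981` (helper619 / helper717 `PushCalcC619`): `v ∈ P` is unramified in
`F`, so either ONE place `w` over `v` of residue degree `2`, or TWO places of residue degree
`1`; `laurent (pushFin981 P' A' v) x y = ∏_{w ∈ P', w ∣ v} laurent (A' w) (x^{f_w}) (y^{f_w})`;
`f₀ v` from `T3.AS.SatakeLocC` at `v ∈ P`, `unitFn893 (m v)` elsewhere; bridge T3 → T6 (Satake
pair = spherical function with the same Satake transform). -/
def DownFinQC773 : Prop :=
  HasSqrtNegThree F → IsImagQuad F →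
    ∀ (Φ : HeckeEigensystem F ℂ) (B : L2Q.H60.L2QBase F), L2Q.H60.IsL2QBase Φ B →
      L2Q.H60.IsRamQ60 B →
      ∀ 𝔫 : Ideal (𝓞 ℚ), CQ57.IsLevQ57 (toBase962_732 B) 𝔫 →
      ∀ (T₀ : Finset (HeightOneSpectrum (𝓞 ℚ)))
        (n n₀ : HeightOneSpectrum (𝓞 F) → ℕ) (m : HeightOneSpectrum (𝓞 ℚ) → ℕ),
        CQ57.IsLevFnQ57 (toBase962_732 B) 𝔫 T₀ n n₀ m →
      ∀ (P' : Finset (HeightOneSpectrum (𝓞 F))) (P : Finset (HeightOneSpectrum (𝓞 ℚ))),
        (∀ w ∈ P', w ∉ (toBase962_732 B).S') →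
        (∀ v : HeightOneSpectrum (𝓞 ℚ), v ∈ P ↔ ∃ w ∈ P', PlaceOver ℚ F v w) →
        (∀ v ∈ P, ¬ v.asIdeal ∣ 𝔫) →
      ∀ (A' : HeightOneSpectrum (𝓞 F) → ℤ × ℤ → ℂ)
        (φ₀ : ∀ w : HeightOneSpectrum (𝓞 F), GL (Fin 2) (w.adicCompletion F) → ℂ),
        (∀ w : HeightOneSpectrum (𝓞 F), T3.AS.IsSymFin (A' w)) →
        (∀ w ∈ P', T3.AS.IsSatakePair w (φ₀ w) (A' w)) →
        (∀ w : HeightOneSpectrum (𝓞 F), w ∉ P' → (∃ v ∈ P, PlaceOver ℚ F v w) →
          φ₀ w = unitFn893 0) →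
        ∃ (A : HeightOneSpectrum (𝓞 ℚ) → ℤ × ℤ → ℂ)
          (f₀ : ∀ v : HeightOneSpectrum (𝓞 ℚ), GL (Fin 2) (v.adicCompletion ℚ) → ℂ),
          (∀ v : HeightOneSpectrum (𝓞 ℚ), T3.AS.IsSymFin (A v)) ∧
          (∀ v ∈ P, A v = B981.pushFin981 (K := ℚ) P' A' v) ∧
          (∀ v ∈ P, T3.AS.IsSatakePair v (f₀ v) (A v)) ∧
          (∀ v ∈ T₀, f₀ v = unitFn893 (m v)) ∧
          SphOut893 (K := ℚ) (K' := F) 2 T₀ (T₀ ∪ P) φ₀ f₀

/-- **LEAF DQ.4 = DOWN-ARCH over `ℚ`** [M-L] (the real place, ONE pure tensor; NOT a port).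
For `c ≠ 0` and Abel pairs `(Φ w, β' w)` upstairs there are `F0`, `F1` of weight `0`, `-1` and
`β` downstairs with `β v = halfQ801 c (β' w)`, `N`-integrals `β v`, and the clause
`CQ801.ArchOkQ801 c`.
Proof.  `F` has ONE infinite place `w₀` (`IsImagQuad`); `β₀ = halfQ801 c (β' w₀)` is a symmetric
bump (`c •` a bump composed with the linear map `X ↦ X/2`); `T3.R.AbelRealC` (closed: helper501,
helper878, helper773 `T3/H773/AbelReal.lean`) for the weights `0` and `-1` gives `F0`, `F1`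
(`T6.IsArchTestR`, `T3.R.HasAbelNR`).  `T6.IsArchTestC (Φ w)`: `T3.AS.IsCplxTest` (continuous,
compact support, bi-`U(2)`-invariant) and `T3.AS.IsCplxSmooth` (along `t ↦ g * h t`, whose
entries are smooth). -/
def DownArchQC773 : Prop :=
  IsImagQuad F → ∀ c : ℂ, c ≠ 0 →
    ∀ (Φ : InfinitePlace F → GL (Fin 2) ℂ → ℂ) (β' : InfinitePlace F → ℝ × ℝ → ℂ),
      (∀ w : InfinitePlace F, T3.AS.IsSymBump (β' w)) →
      (∀ w : InfinitePlace F, T3.AS.IsCplxTest (Φ w)) →
      (∀ w : InfinitePlace F, T3.AS.IsCplxSmooth (Φ w)) →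
      (∀ w : InfinitePlace F, T3.AS.HasAbelN (Φ w) (β' w)) →
      ∃ (F0 F1 : GL (Fin 2) ℝ → ℂ) (β : InfinitePlace ℚ → ℝ × ℝ → ℂ),
        (∀ v : InfinitePlace ℚ, T3.AS.IsSymBump (β v)) ∧
        T6.IsArchTestR 0 F0 ∧ T6.IsArchTestR (-1) F1 ∧
        (∀ v : InfinitePlace ℚ, T3.R.HasAbelNR F0 (β v)) ∧
        (∀ v : InfinitePlace ℚ, T3.R.HasAbelNR F1 (β v)) ∧
        (∀ (v : InfinitePlace ℚ) (w : InfinitePlace F), β v = halfQ801 c (β' w)) ∧
        ArchOkQ801 c Φ F0 F1

/-- **LEAF DQ.5 = PUSH-TEL over `ℚ`** [L-XL] (MATHLIB + the definitions of the coordinates).  If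
the sum of the pure tensors upstairs telescopes along `c₀' = coordTorM F P' e' α'`, then the sum
of the pushed pure tensors downstairs telescopes along `c₀ = coordTorM ℚ P e α`.
Proof.  See the falsity checks (b), (c) of the header: `crdDn (M, X) = c ∑_{N(m) = M}
crdUp (m, X/2)` (finite sums: finite supports), the translation by `c₀'` maps the fibre over
`Δ` onto the fibre over `Δ + c₀`, for fixed `Δ` only finitely many `(j, m)` contribute.  The
finite part is the finite part of `B981.PushTelC981` (helper146); there is NO integral at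
infinity (one place over the real place). -/
def PushTelQC773 : Prop :=
  IsImagQuad F →
    ∀ (P' : Finset (HeightOneSpectrum (𝓞 F))) (P : Finset (HeightOneSpectrum (𝓞 ℚ)))
      (e' : HeightOneSpectrum (𝓞 F) → ℕ) (e : HeightOneSpectrum (𝓞 ℚ) → ℕ)
      (α' : Fˣ) (α : ℚˣ),
      (∀ v : HeightOneSpectrum (𝓞 ℚ), v ∈ P ↔ ∃ w ∈ P', PlaceOver ℚ F v w) →
      P.Nonempty → (∀ v ∈ P, 0 < e v) →
      (∀ v ∈ P, e v = ∑ w ∈ B981.fib981 (K := ℚ) P' v, B981.resDeg981 v w * e' w) →
      (∀ (v : InfinitePlace ℚ) (w : InfinitePlace F),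
        Real.log (v (α : ℚ)) = 2 * Real.log (w (α' : F))) →
      ∀ (c : ℂ) (N : ℕ) (A' : Fin N → HeightOneSpectrum (𝓞 F) → ℤ × ℤ → ℂ)
        (β' : Fin N → InfinitePlace F → ℝ × ℝ → ℂ)
        (A : Fin N → HeightOneSpectrum (𝓞 ℚ) → ℤ × ℤ → ℂ)
        (β : Fin N → InfinitePlace ℚ → ℝ × ℝ → ℂ),
        (∀ (i : Fin N) (w : HeightOneSpectrum (𝓞 F)), T3.AS.IsSymFin (A' i w)) →
        (∀ (i : Fin N) (w : InfinitePlace F), T3.AS.IsSymBump (β' i w)) →
        (∀ (i : Fin N), ∀ v ∈ P, A i v = B981.pushFin981 (K := ℚ) P' (A' i) v) →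
        (∀ (i : Fin N) (v : InfinitePlace ℚ) (w : InfinitePlace F),
          β i v = halfQ801 c (β' i w)) →
        (∀ Δ : T3.M.CoordM F P',
          HasSum (fun j : ℤ => ∑ i : Fin N,
            T3.M.pureCoordM F P' (A' i) (β' i) (Δ + j • T3.M.coordTorM F P' e' α')) 0) →
        ∀ Δ : T3.M.CoordM ℚ P,
          HasSum (fun j : ℤ => ∑ i : Fin N,
            T3.M.pureCoordM ℚ P (A i) (β i) (Δ + j • T3.M.coordTorM ℚ P e α)) 0

end Nodes

/-! ## Appendix: the equation lemmas of the definitions of this file are realised HERE -/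

theorem eqns_realised_datQSpec773 : True := by
  have _h0_0 := @HaarCplxExC773.eq_1
  have _h0_1 := @HaarCplxExC773.eq_def
  have _h0_2 := @HaarCplxExC773.eq_unfold
  have _h1_0 := @NormFrameQC773.eq_1
  have _h1_1 := @NormFrameQC773.eq_def
  have _h1_2 := @NormFrameQC773.eq_unfold
  have _h2_0 := @DownFinQC773.eq_1
  have _h2_1 := @DownFinQC773.eq_def
  have _h2_2 := @DownFinQC773.eq_unfold
  have _h3_0 := @DownArchQC773.eq_1
  have _h3_1 := @DownArchQC773.eq_def
  have _h3_2 := @DownArchQC773.eq_unfold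
  have _h4_0 := @PushTelQC773.eq_1
  have _h4_1 := @PushTelQC773.eq_def
  have _h4_2 := @PushTelQC773.eq_unfold
  trivial

end Fermat.Agent.LT.T7.DQ773

end
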