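import Mathlib
import Fermat.Agent.LT.T7.DQ773.DatQSpec

/-!
# Row LT, tower T7, node T7.L2Q.1.H2a.A.0.D `BQ87.DatQC87` (owner helper773, registry row 3088):
# THE CUT over `ℚ` -- the PROVED top

OFF-MAIN.  Complete proofs, nothing assumed.  ADDITIVE (new names only, suffix `773`).

    datQC_of773 : B981.UpDatC981 F → HaarCplxExC773 → NormFrameQC773 F → DownFinQC773 F
                    → DownArchQC773 F → PushTelQC773 F → BQ87.DatQC87 F            (VERBATIM)

Mirror of `B981.datC_of981` (helper981, `T7/B981/PairDatTop.lean`).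
-/

set_option autoImplicit false

open AutomorphicForm IsDedekindDomain NumberField MeasureTheory
open scoped ComplexConjugate

noncomputable section

namespace Fermat.Agent.LT.T7.DQ773

open Fermat.Agent.LT Fermat.Agent.LT.H556 Fermat.Agent.LT.H556.A0 Fermat.Agent.LT.T7
  Fermat.Agent.LT.T7.H305 Fermat.Agent.LT.T7.L2Q Fermat.Agent.LT.T7.H893
  Fermat.Agent.LT.T7.H962 Fermat.Agent.LT.T7.H732 Fermat.Agent.LT.T7.MQ298
  Fermat.Agent.LT.T7.CQ801 Fermat.Agent.LT.T7.PQ484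

attribute [local instance] Fermat.Agent.LT.T5.instMeasurableSpaceG

variable {F : Type} [Field F] [NumberField F]

/-- The place under `w` is unique. -/
theorem placeOver_unique773 {v v₀ : HeightOneSpectrum (𝓞 ℚ)} {w : HeightOneSpectrum (𝓞 F)}
    (h : PlaceOver ℚ F v w) (h₀ : PlaceOver ℚ F v₀ w) : v = v₀ := by
  apply HeightOneSpectrum.ext
  ext x
  have e1 := h x (algebraMap (𝓞 ℚ) (𝓞 F) x) rfl
  have e2 := h₀ x (algebraMap (𝓞 ℚ) (𝓞 F) x) rfl
  exact e1.trans e2.symm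

/-- A place over a divisor of `𝔫` divides `𝔫 𝒪_F`. -/
theorem dvd_upI_of_placeOver773 {v : HeightOneSpectrum (𝓞 ℚ)} {w : HeightOneSpectrum (𝓞 F)}
    (h : PlaceOver ℚ F v w) {𝔫 : Ideal (𝓞 ℚ)} (hv : v.asIdeal ∣ 𝔫) :
    w.asIdeal ∣ upI (K' := F) 𝔫 := by
  rw [Ideal.dvd_iff_le] at hv ⊢
  unfold upI
  rw [Ideal.map_le_iff_le_comap]
  intro x hx
  rw [Ideal.mem_comap]
  exact (h x (algebraMap (𝓞 ℚ) (𝓞 F) x) rfl).1 (hv hx)

/-- The extension of a non-zero ideal is not zero. -/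
theorem upI_ne_bot773 {𝔫 : Ideal (𝓞 ℚ)} (h : 𝔫 ≠ ⊥) : upI (K' := F) 𝔫 ≠ ⊥ := by
  unfold upI
  intro h0
  rw [Ideal.map_eq_bot_iff_of_injective
    (FaithfulSMul.algebraMap_injective (𝓞 ℚ) (𝓞 F))] at h0
  exact h h0

/-- **THE TOP OF THE CUT over `ℚ`**: the data exist. -/
theorem datQC_of773 (hU : B981.UpDatC981 F) (hH : HaarCplxExC773) (hN : NormFrameQC773 F)
    (hF : DownFinQC773 F) (hA : DownArchQC773 F) (hT : PushTelQC773 F) : BQ87.DatQC87 F := by
  classical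
  intro hs3 hiq Φ _hΦ _hconst hek B hB hram 𝔫 hlev T₀ n n₀ m hexp c hc
  obtain ⟨μc, hμc⟩ := hH
  have h𝔑 : upI (K' := F) 𝔫 ≠ ⊥ := upI_ne_bot773 hlev.level_ne
  obtain ⟨P', e', a₀', hP'ne, hP', hspan, hmem, hgood⟩ :=
    hek (upI (K' := F) 𝔫) h𝔑 (toBase962_732 B).S'
  have ha₀ : algebraMap (𝓞 F) F a₀' ≠ 0 := by
    intro h0
    have h0' : a₀' = 0 :=
      (map_eq_zero_iff (algebraMap (𝓞 F) F)
        (FaithfulSMul.algebraMap_injective (𝓞 F) F)).1 h0
    rw [h0'] at hspan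
    have hbot : (∏ v ∈ P', v.asIdeal ^ e' v) = ⊥ := by rw [← hspan]; simp
    rw [← Ideal.zero_eq_bot, Finset.prod_eq_zero_iff] at hbot
    obtain ⟨v, hvP, hv⟩ := hbot
    exact v.ne_bot ((pow_eq_zero_iff (Nat.pos_iff_ne_zero.1 (hP' v hvP).2.2)).1 hv)
  set α' : Fˣ := Units.mk0 _ ha₀ with hα'
  have hfr' : T3.M.FrameM F (upI (K' := F) 𝔫) P' e' a₀' α' :=
    ⟨h𝔑, hP'ne, fun v hv => (hP' v hv).2.1, fun v hv => (hP' v hv).2.2, hspan, hmem, rfl⟩
  obtain ⟨N, κc, A', β', φ₀', Φa, hκ, hsA', hsβ', hsat', htest', hsm', habel', hacts', htel',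
    hft'⟩ := hU hiq.2 μc hμc (upI (K' := F) 𝔫) P' e' a₀' α' hfr'
  obtain ⟨P, e, a₀, α, hfr, htot, hunder, he, hlog⟩ :=
    hN hiq 𝔫 P' e' a₀' α' hlev.level_ne hfr'
  -- the components upstairs at ALL finite places
  set φ₀ : Fin N → ∀ w : HeightOneSpectrum (𝓞 F), GL (Fin 2) (w.adicCompletion F) → ℂ :=
    fun i w => if w ∈ P' then φ₀' i w
      else if ∃ v ∈ T₀, PlaceOver ℚ F v w then unitFn893 (n w) else unitFn893 0 with hφ₀
  have hφ₀P' : ∀ (i : Fin N), ∀ w ∈ P', φ₀ i w = φ₀' i w := fun i w hw => by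
    simp only [hφ₀, if_pos hw]
  have hnotP' : ∀ (v : HeightOneSpectrum (𝓞 ℚ)) (w : HeightOneSpectrum (𝓞 F)), v ∈ T₀ →
      PlaceOver ℚ F v w → w ∉ P' := fun v w hv hvw hw =>
    (hP' w hw).2.1 (dvd_upI_of_placeOver773 hvw ((hexp.div v).1 hv))
  have hunit_up : ∀ (i : Fin N), ∀ v ∈ T₀, ∀ w : HeightOneSpectrum (𝓞 F),
      PlaceOver ℚ F v w → φ₀ i w = unitFn893 (n w) := fun i v hv w hvw => by
    simp only [hφ₀, if_neg (hnotP' v w hv hvw)]
    rw [if_pos ⟨v, hv, hvw⟩]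
  have hunit_rest : ∀ (i : Fin N) (w : HeightOneSpectrum (𝓞 F)), w ∉ P' →
      (∃ v ∈ P, PlaceOver ℚ F v w) → φ₀ i w = unitFn893 0 := fun i w hw hex => by
    simp only [hφ₀, if_neg hw]
    rw [if_neg]
    rintro ⟨v₀, hv₀, hv₀w⟩
    obtain ⟨v, hv, hvw⟩ := hex
    have hvv : v = v₀ := placeOver_unique773 hvw hv₀w
    subst hvv
    exact hfr.prime v hv ((hexp.div v).1 hv₀)
  -- the finite places downstairs
  choose A f₀ hsA hApush hsat hunit hsph using fun i : Fin N =>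
    hF hs3 hiq Φ B hB hram 𝔫 hlev T₀ n n₀ m hexp P' P (fun w hw => (hP' w hw).1) hunder
      hfr.prime (A' i) (φ₀ i) (hsA' i)
      (fun w hw => by rw [hφ₀P' i w hw]; exact hsat' i w hw) (hunit_rest i)
  -- the real place downstairs
  choose F0 F1 β hsβ ht0 ht1 hab0 hab1 hβ harch using fun i : Fin N =>
    hA hiq c hc (Φa i) (β' i) (hsβ' i) (htest' i) (hsm' i) (habel' i)
  -- the telescoping downstairs
  have htel := hT hiq P' P e' e α' α hunder hfr.nonempty hfr.pos he hlog c N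
    A' β' A β hsA' hsβ' hApush hβ htel'
  refine ⟨⟨N, P', e', a₀', α', P, e, a₀, α, μc, κc, A', β', φ₀, Φa, A, β, f₀, F0, F1⟩, ?_⟩
  exact
    { haar_c := hμc
      frame_up := hfr'
      frame_dn := hfr
      totpos := htot
      out := fun w hw => (hP' w hw).1
      good := hgood
      under := hunder
      κc_ne := hκ
      symA' := hsA'
      symβ' := hsβ'
      sat_up := fun i w hw => by
        show T3.AS.IsSatakePair w (φ₀ i w) (A' i w)
        rw [hφ₀P' i w hw]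
        exact hsat' i w hw
      test_up := htest'
      smooth_up := hsm'
      abel_up := habel'
      acts_up := hacts'
      symA := hsA
      symβ := hsβ
      sat_dn := hsat
      test_dn := fun t i => by
        cases t
        · exact ht0 i
        · exact ht1 i
      abel_dn := fun t i v => by
        cases t
        · exact hab0 i v
        · exact hab1 i v
      tel_up := htel'
      tel_dn := htel
      ft_ne := hft'
      unit_rest := hunit_rest
      loc := fun i => ⟨hunit i, hunit_up i, hsph i, harch i⟩ }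

end Fermat.Agent.LT.T7.DQ773

end
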