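import Mathlib
import Fermat.Agent.LT.T7.DQ773.DatQSpec

/-!
# Row LT, tower T7, leaf T7.L2Q.1.H2a.A.0.D.4 `DQ773.DownArchQC773` (helper773, registry row
# 3178): the TOP

OFF-MAIN.  Complete proof, nothing assumed.  ADDITIVE (new names only, suffix `773`).

    downArchQC_of773 : T3.R.AbelRealC → DQ773.DownArchQC773 F

Route.  `F` has ONE infinite place (`IsImagQuad`); `β₀ = halfQ801 c (β' w₀)` is a symmetric
bump; `T3.R.AbelRealC` for the weights `0` and `-1`; `T6.IsArchTestC` from `T3.AS.IsCplxTest`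
and `T3.AS.IsCplxSmooth` (the entries of `t ↦ g * h t` are smooth).
-/

set_option autoImplicit false

open AutomorphicForm IsDedekindDomain NumberField MeasureTheory
open scoped ComplexConjugate ContDiff

noncomputable section

namespace Fermat.Agent.LT.T7.DQ773

open Fermat.Agent.LT Fermat.Agent.LT.H556 Fermat.Agent.LT.H556.A0 Fermat.Agent.LT.T7
  Fermat.Agent.LT.T7.CQ801

/-- `halfQ801 c β'` is a symmetric bump. -/
theorem isSymBump_half773 (c : ℂ) {β' : ℝ × ℝ → ℂ} (h : T3.AS.IsSymBump β') :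
    T3.AS.IsSymBump (halfQ801 c β') := by
  obtain ⟨h1, h2, h3⟩ := h
  refine ⟨?_, ?_, ?_⟩
  · have hs : ContDiff ℝ ∞ (fun p : ℝ × ℝ => (2 : ℝ)⁻¹ • p) := contDiff_id.const_smul _
    exact contDiff_const.mul (h1.comp hs)
  · have e : (fun p : ℝ × ℝ => β' ((2 : ℝ)⁻¹ • p))
        = β' ∘ (Homeomorph.smulOfNeZero (2 : ℝ)⁻¹ (by norm_num) : ℝ × ℝ ≃ₜ ℝ × ℝ) := rfl
    have hc : HasCompactSupport (fun p : ℝ × ℝ => β' ((2 : ℝ)⁻¹ • p)) := by
      rw [e]
      exact h2.comp_homeomorph _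
    exact hc.mul_left
  · intro x y
    show c * β' ((2 : ℝ)⁻¹ • (x, y)) = c * β' ((2 : ℝ)⁻¹ • (y, x))
    rw [Prod.smul_mk, Prod.smul_mk, h3]

/-- The bridge from the regularity of T3 to the test functions of T6 on `GL₂(ℂ)`. -/
theorem isArchTestC_of_cplx773 {Φ : GL (Fin 2) ℂ → ℂ} (h1 : T3.AS.IsCplxTest Φ)
    (h2 : T3.AS.IsCplxSmooth Φ) : T6.IsArchTestC Φ where
  cont := h1.cont
  supp := h1.supp
  smooth := by
    intro m h hh g
    refine h2 m (fun t => g * h t) ?_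
    intro i j
    have e : (fun t => (((g * h t : GL (Fin 2) ℂ)) : Matrix (Fin 2) (Fin 2) ℂ) i j)
        = fun t => (g : Matrix (Fin 2) (Fin 2) ℂ) i 0
            * ((h t : GL (Fin 2) ℂ) : Matrix (Fin 2) (Fin 2) ℂ) 0 j
          + (g : Matrix (Fin 2) (Fin 2) ℂ) i 1
            * ((h t : GL (Fin 2) ℂ) : Matrix (Fin 2) (Fin 2) ℂ) 1 j := by
      funext t
      rw [Units.val_mul, Matrix.mul_apply, Fin.sum_univ_two]
    rw [e]
    exact (contDiff_const.mul (hh 0 j)).add (contDiff_const.mul (hh 1 j))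
  left := by
    intro k g hk
    have h1' : T3.AS.IsUnitary2 (1 : GL (Fin 2) ℂ) := by
      show ((1 : GL (Fin 2) ℂ) : Matrix (Fin 2) (Fin 2) ℂ)
        * ((1 : GL (Fin 2) ℂ) : Matrix (Fin 2) (Fin 2) ℂ).conjTranspose = 1
      simp
    have := h1.bi_inv k 1 g hk h1'
    rwa [mul_one] at this
  right := by
    intro k g hk
    have h1' : T3.AS.IsUnitary2 (1 : GL (Fin 2) ℂ) := by
      show ((1 : GL (Fin 2) ℂ) : Matrix (Fin 2) (Fin 2) ℂ)
        * ((1 : GL (Fin 2) ℂ) : Matrix (Fin 2) (Fin 2) ℂ).conjTranspose = 1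
      simp
    have := h1.bi_inv 1 k g h1' hk
    rwa [one_mul] at this

/-- **THE TOP of DQ.4.** -/
theorem downArchQC_of773 (F : Type) [Field F] (hAR : T3.R.AbelRealC) : DownArchQC773 F := by
  intro hiq c _hc Φ β' hsβ' htest hsm habel
  have hcard : Nat.card (InfinitePlace F) = 1 := hiq.1
  obtain ⟨hsub, hne⟩ := Nat.card_eq_one_iff_unique.1 hcard
  obtain ⟨w₀⟩ := hne
  have hw : ∀ w : InfinitePlace F, w = w₀ := fun w => Subsingleton.elim w w₀
  have hβ₀ : T3.AS.IsSymBump (halfQ801 c (β' w₀)) := isSymBump_half773 c (hsβ' w₀)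
  obtain ⟨F0, hF0, hA0⟩ := hAR 0 (Or.inl rfl) (halfQ801 c (β' w₀)) hβ₀
  obtain ⟨F1, hF1, hA1⟩ := hAR (-1) (Or.inr (Or.inr rfl)) (halfQ801 c (β' w₀)) hβ₀
  refine ⟨F0, F1, fun _ => halfQ801 c (β' w₀), fun _ => hβ₀, hF0, hF1, fun _ => hA0,
    fun _ => hA1, ?_, ?_⟩
  · intro v w
    rw [hw w]
  · refine ⟨fun w => isArchTestC_of_cplx773 (htest w) (hsm w), hF0, hF1,
      fun w => ⟨β' w, hsβ' w, habel w, ?_, ?_⟩⟩
    · rw [hw w]
      exact hA0
    · rw [hw w]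
      exact hA1

end Fermat.Agent.LT.T7.DQ773

end
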