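import Mathlib
import Fermat.Agent.LT.T7.DQ773.DownArchQTop
import Fermat.Agent.LT.T3.H773.AbelReal

/-!
# Row LT, tower T7, leaf T7.L2Q.1.H2a.A.0.D.4 `DQ773.DownArchQC773` (helper773, registry row
# 3178): CLOSED, UNCONDITIONAL

OFF-MAIN.  Complete proof, nothing assumed.

    downArchQC773 F : DQ773.DownArchQC773 F

= `downArchQC_of773` (`DownArchQTop.lean`) applied to the closed leaf `T3.R.AbelRealC`
(`T3/H773/AbelReal.lean` `abelRealC773`, helper773; also closed by helper501, helper878).
-/

set_option autoImplicit false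

noncomputable section

namespace Fermat.Agent.LT.T7.DQ773

/-- **LEAF DQ.4 = DOWN-ARCH over `ℚ`, CLOSED.** -/
theorem downArchQC773 (F : Type) [Field F] : DownArchQC773 F :=
  downArchQC_of773 F Fermat.Agent.LT.T3.H773.abelRealC773

end Fermat.Agent.LT.T7.DQ773

end
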