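import Mathlib
import Fermat.Agent.LT.T7.DQ773.DatQSpec
import Fermat.Agent.LT.T3.Closed

/-!
# Row LT, tower T7, leaf T7.L2Q.1.H2a.A.0.D.0 `DQ773.HaarCplxExC773` (helper773, registry row
# 3175): CLOSED, UNCONDITIONAL

OFF-MAIN.  Complete proof, nothing assumed.  The Haar measure of the closed station
`T3.AS.AbelCplxSmoothC` (`T3/Closed.lean` `abelCplxSmooth_closed`).
-/

set_option autoImplicit false

noncomputable section

namespace Fermat.Agent.LT.T7.DQ773

/-- **LEAF DQ.0 = HAAR-CPLX-EX, CLOSED.** -/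
theorem haarCplxExC773 : HaarCplxExC773 := by
  obtain ⟨μc, hμc, -⟩ := Fermat.Agent.LT.T3.abelCplxSmooth_closed
  exact ⟨μc, hμc⟩

end Fermat.Agent.LT.T7.DQ773

end
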