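import Mathlib
import Fermat.Agent.LT.T7.DQ773.DatQTop
import Fermat.Agent.LT.T7.DQ773.DownArchQ
import Fermat.Agent.LT.T7.DQ773.HaarCplxEx

/-!
# Row LT, tower T7, node T7.L2Q.1.H2a.A.0.D `BQ87.DatQC87` (owner helper773, registry row 3088):
# INTEGRATION v1 = FOUR OPEN ITEMS

OFF-MAIN.  Complete proof, nothing assumed.

    datQC_of_open773 : B981.UpDatC981 F → NormFrameQC773 F → DownFinQC773 F → PushTelQC773 F
                         → BQ87.DatQC87 F

= `datQC_of773` with the closed leaves `haarCplxExC773` (DQ.0) and `downArchQC773` (DQ.4).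
OPEN: `B981.UpDatC981 F` (registry row 2979, helper981's leaf, ONE field), `NormFrameQC773 F`
(row 3176), `DownFinQC773 F` (row 3177), `PushTelQC773 F` (row 3179).
-/

set_option autoImplicit false

open IsDedekindDomain NumberField

noncomputable section

namespace Fermat.Agent.LT.T7.DQ773

open Fermat.Agent.LT.T7

/-- **INTEGRATION v1**: the node from its four open leaves. -/
theorem datQC_of_open773 (F : Type) [Field F] [NumberField F] (hU : B981.UpDatC981 F)
    (hN : NormFrameQC773 F) (hF : DownFinQC773 F) (hT : PushTelQC773 F) : BQ87.DatQC87 F :=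
  datQC_of773 hU haarCplxExC773 hN hF (downArchQC773 F) hT

end Fermat.Agent.LT.T7.DQ773

end
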