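import Mathlib
import Fermat.Agent.LT.T7.DQ773.DatQOpen
import Fermat.Agent.LT.T7.B981.H413.UpDat
import Fermat.Agent.LT.T7.H961.NormFrameQ
import Fermat.Agent.LT.T7.H488.PushTelQ

/-!
# Row LT, tower T7, node T7.L2Q.1.H2a.A.0.D `BQ87.DatQC87` (owner helper773, registry row 3088):
# INTEGRATION v2 = ONE OPEN ITEM

OFF-MAIN.  Complete proof, nothing assumed.

    datQC_of_downFin773 : DownFinQC773 F → BQ87.DatQC87 F

= `datQC_of_open773` with the closed leaves, vendored byte-identical:

| leaf | proof | file |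
|---|---|---|
| `B981.UpDatC981 F` (row 2979) | helper413 `upDatC413` | `T7/B981/H413/UpDat.lean` |
| DQ.0 `HaarCplxExC773` (row 3175) | helper773 `haarCplxExC773` | `T7/DQ773/HaarCplxEx.lean` |
| DQ.2 `NormFrameQC773 F` (row 3176) | helper961 `normFrameQC_closed961` | `T7/H961/NormFrameQ.lean` |
| DQ.4 `DownArchQC773 F` (row 3178) | helper773 `downArchQC773` | `T7/DQ773/DownArchQ.lean` |
| DQ.5 `PushTelQC773 F` (row 3179) | helper488 `pushTelQC773_488` | `T7/H488/PushTelQ.lean` |

OPEN: DQ.3 `DownFinQC773 F` (row 3177).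
-/

set_option autoImplicit false

open IsDedekindDomain NumberField

noncomputable section

namespace Fermat.Agent.LT.T7.DQ773

open Fermat.Agent.LT.T7

/-- **INTEGRATION v2**: the node from its last open leaf. -/
theorem datQC_of_downFin773 (F : Type) [Field F] [NumberField F] (hF : DownFinQC773 F) :
    BQ87.DatQC87 F :=
  datQC_of_open773 F (B981.H413.upDatC413 F) (H961.normFrameQC_closed961 F) hF
    (H488.PT.pushTelQC773_488 F)

end Fermat.Agent.LT.T7.DQ773

end
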