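import Mathlib
import Fermat.Agent.LT.T7.DQ773.DatQOpen2
import Fermat.Agent.LT.T7.H131.DownFinQ

/-!
# Row LT, tower T7, node T7.L2Q.1.H2a.A.0.D `BQ87.DatQC87` (owner helper773, registry row 3088):
# CLOSED, UNCONDITIONAL

OFF-MAIN.  Complete proof, nothing assumed.

    datQC_closed773 F : BQ87.DatQC87 F

The node of helper87 (`T7/H87/BaseAQSpec.lean`, sha256 6471b15c) from the cut of helper773
(`DatQSpec.lean` 8d7d26d9, top `datQC_of773`) and the closed leaves, vendored byte-identical:

| leaf | proof | file |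
|---|---|---|
| `B981.UpDatC981 F` (row 2979) | helper413 `upDatC413` | `T7/B981/H413/UpDat.lean` |
| DQ.0 `HaarCplxExC773` (row 3175) | helper773 `haarCplxExC773` | `T7/DQ773/HaarCplxEx.lean` |
| DQ.2 `NormFrameQC773 F` (row 3176) | helper961 `normFrameQC_closed961` | `T7/H961/NormFrameQ.lean` |
| DQ.3 `DownFinQC773 F` (row 3177) | helper131 `downFinQC_h131` | `T7/H131/DownFinQ.lean` |
| DQ.4 `DownArchQC773 F` (row 3178) | helper773 `downArchQC773` | `T7/DQ773/DownArchQ.lean` |
| DQ.5 `PushTelQC773 F` (row 3179) | helper488 `pushTelQC773_488` | `T7/H488/PushTelQ.lean` |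
-/

set_option autoImplicit false

open IsDedekindDomain NumberField

noncomputable section

namespace Fermat.Agent.LT.T7.DQ773

open Fermat.Agent.LT.T7

/-- **NODE A.0.D over `ℚ` = DATA, CLOSED.** -/
theorem datQC_closed773 (F : Type) [Field F] [NumberField F] : BQ87.DatQC87 F :=
  datQC_of_downFin773 F (H131.downFinQC_h131 F)

end Fermat.Agent.LT.T7.DQ773

end
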